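import Fermat.Agent.LT.A2.H467.DataSpec

/-!
# Row LT, tower A2, leaf A2.03.1.1.07 `WX467.LocUniqC` (helper96) -- OFF-MAIN

A family with the local axioms `WX467.LocAx` is determined on the admissible pairs by its
initial vector `F 1 1`:

* `LocAx.tor` reduces `(g, m)` to `(d(det m)⁻¹ g, 1)`, i.e. to `h ∈ SL₂(k)`, `m = 1`;
* Bruhat: `h = n(x) t(a)` (`h 1 0 = 0`) or `h = n(x) t(a) w n(y)` (`h 1 0 ≠ 0`), and the axioms
  `unip`, `diag`, `weyl` express `F h 1` through `F 1 1`.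

Purely algebraic (no measure theory: the integral of `weyl` is only rewritten under `intL`).
-/

set_option autoImplicit false

open MeasureTheory

noncomputable section

namespace Fermat.Agent.LT.A2.H96

open Fermat.Agent.LT.A2 Fermat.Agent.LT.A2.WX467

section Algebra

variable {k : Type} [Field k]

/-- `1 ∈ T(k)`. -/
theorem inTorL_one96 (t n : k) : InTorL t n (1 : Matrix (Fin 2) (Fin 2) k) := by
  refine ⟨1, 0, ?_⟩
  ext i j
  fin_cases i <;> fin_cases j <;> simp [torMat]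

/-- `(h, 1)` is admissible for `h ∈ SL₂(k)`. -/
theorem admL_one96 (t n : k) {h : Matrix (Fin 2) (Fin 2) k} (hh : h.det = 1) :
    AdmL t n h 1 :=
  ⟨inTorL_one96 t n, by simp [hh], by simp⟩

/-- Bruhat, small cell. -/
theorem decomp_upper96 (h : Matrix (Fin 2) (Fin 2) k) (hdet : h.det = 1) (hc : h 1 0 = 0) :
    h 0 0 ≠ 0 ∧
      h = !![1, h 0 1 * h 0 0; 0, 1] * (!![h 0 0, 0; 0, (h 0 0)⁻¹] * 1) := by
  have hd : h 0 0 * h 1 1 = 1 := by
    rw [Matrix.det_fin_two, hc] at hdet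
    simpa using hdet
  have ha : h 0 0 ≠ 0 := left_ne_zero_of_mul_eq_one hd
  have hinv : (h 0 0)⁻¹ = h 1 1 := inv_eq_of_mul_eq_one_right hd
  refine ⟨ha, ?_⟩
  rw [Matrix.mul_one, Matrix.mul_fin_two]
  conv_lhs => rw [Matrix.eta_fin_two h]
  rw [hc, hinv]
  congr 1
  ext i j
  fin_cases i <;> fin_cases j <;> simp
  · have : h 0 1 * h 0 0 * h 1 1 = h 0 1 := by rw [mul_assoc, hd, mul_one]
    exact this.symm

/-- Bruhat, big cell. -/
theorem decomp_big96 (h : Matrix (Fin 2) (Fin 2) k) (hdet : h.det = 1) (hc : h 1 0 ≠ 0) :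
    h = !![1, h 0 0 / h 1 0; 0, 1] * (!![-(h 1 0)⁻¹, 0; 0, (-(h 1 0)⁻¹)⁻¹] *
      (!![0, 1; -1, 0] * (!![1, h 1 1 / h 1 0; 0, 1] * 1))) := by
  have hd : h 0 0 * h 1 1 - h 0 1 * h 1 0 = 1 := by
    rw [Matrix.det_fin_two] at hdet
    exact hdet
  rw [Matrix.mul_one, Matrix.mul_fin_two, Matrix.mul_fin_two, Matrix.mul_fin_two]
  conv_lhs => rw [Matrix.eta_fin_two h]
  congr 1
  ext i j
  fin_cases i <;> fin_cases j <;> simp <;> field_simp
  · linear_combination (-1 : k) * hd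

end Algebra

section Axioms

variable {k : Type} [Field k] [TopologicalSpace k] {absv : k → ℝ} {t n : k} {ψ : k → ℂ}
  {μ : @Measure k (borel k)} {γ : ℂ} {η : k → ℂ}
  {F : Matrix (Fin 2) (Fin 2) k → Matrix (Fin 2) (Fin 2) k → k × k → ℂ}

/-- The value of the family on the small cell. -/
theorem upper96 (hF : LocAx absv t n ψ μ γ η F) (x a : k) (ha : a ≠ 0) (ξ : k × k) :
    F (!![1, x; 0, 1] * (!![a, 0; 0, a⁻¹] * 1)) 1 ξ
      = ψ (x * qfL t n ξ) * (η a * ((absv a : ℝ) : ℂ) * F 1 1 (a • ξ)) := by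
  have h1 : AdmL t n (1 : Matrix (Fin 2) (Fin 2) k) 1 := admL_one96 t n (by simp)
  have h2 : AdmL t n (!![a, 0; 0, a⁻¹] * 1 : Matrix (Fin 2) (Fin 2) k) 1 :=
    admL_one96 t n (by simp [Matrix.det_fin_two, ha])
  rw [hF.unip x _ 1 ξ h2, hF.diag a ha 1 1 ξ h1]

/-- The value of the family on the big cell. -/
theorem big96 (hF : LocAx absv t n ψ μ γ η F) (x a y : k) (ha : a ≠ 0) (ξ : k × k) :
    F (!![1, x; 0, 1] * (!![a, 0; 0, a⁻¹] * (!![0, 1; -1, 0] * (!![1, y; 0, 1] * 1)))) 1 ξ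
      = ψ (x * qfL t n ξ) * (η a * ((absv a : ℝ) : ℂ) *
          (γ * intL μ fun z => ψ (y * qfL t n z) * F 1 1 z * ψ (bfL t n (a • ξ) z))) := by
  have h1 : AdmL t n (1 : Matrix (Fin 2) (Fin 2) k) 1 := admL_one96 t n (by simp)
  have h2 : AdmL t n (!![1, y; 0, 1] * 1 : Matrix (Fin 2) (Fin 2) k) 1 :=
    admL_one96 t n (by simp [Matrix.det_fin_two])
  have h3 : AdmL t n (!![0, 1; -1, 0] * (!![1, y; 0, 1] * 1) : Matrix (Fin 2) (Fin 2) k) 1 :=
    admL_one96 t n (by simp [Matrix.det_fin_two])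
  have h4 : AdmL t n (!![a, 0; 0, a⁻¹] * (!![0, 1; -1, 0] * (!![1, y; 0, 1] * 1)) :
      Matrix (Fin 2) (Fin 2) k) 1 :=
    admL_one96 t n (by simp [Matrix.det_fin_two, ha])
  have hfun : (fun z => F (!![1, y; 0, 1] * 1) 1 z * ψ (bfL t n (a • ξ) z))
      = fun z => ψ (y * qfL t n z) * F 1 1 z * ψ (bfL t n (a • ξ) z) := by
    funext z
    rw [hF.unip y 1 1 z h1]
  rw [hF.unip x _ 1 ξ h4, hF.diag a ha _ 1 ξ h3, hF.weyl _ 1 (a • ξ) h2, hfun]

/-- Two families with the same initial vector agree on `SL₂(k) × {1}`. -/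
theorem eq_on_sl96 {F' : Matrix (Fin 2) (Fin 2) k → Matrix (Fin 2) (Fin 2) k → k × k → ℂ}
    (hF : LocAx absv t n ψ μ γ η F) (hF' : LocAx absv t n ψ μ γ η F')
    (h11 : F 1 1 = F' 1 1) (h : Matrix (Fin 2) (Fin 2) k) (hdet : h.det = 1) :
    F h 1 = F' h 1 := by
  funext ξ
  by_cases hc : h 1 0 = 0
  · obtain ⟨ha, hdec⟩ := decomp_upper96 h hdet hc
    rw [hdec, upper96 hF _ _ ha ξ, upper96 hF' _ _ ha ξ, h11]
  · have ha : -(h 1 0)⁻¹ ≠ 0 := neg_ne_zero.mpr (inv_ne_zero hc)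
    rw [decomp_big96 h hdet hc, big96 hF _ _ _ ha ξ, big96 hF' _ _ _ ha ξ, h11]

end Axioms

/-- **Leaf A2.03.1.1.07 `WX467.LocUniqC`**, VERBATIM. -/
theorem locUniqC96 : WX467.LocUniqC := by
  intro k _ _ absv t n ψ μ γ η F F' hpos hF hF' h11 g m hgm
  obtain ⟨htor, hdet, hne⟩ := hgm
  -- reduction to `SL₂(k) × {1}` by the torus axiom
  have hg0 : (!![1, 0; 0, m.det⁻¹] * g : Matrix (Fin 2) (Fin 2) k).det = 1 := by
    rw [Matrix.det_mul, Matrix.det_fin_two_of, hdet]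
    simp [hne]
  have hadm : AdmL t n (!![1, 0; 0, m.det⁻¹] * g) 1 := admL_one96 t n hg0
  have hback : (!![1, 0; 0, m.det] * (!![1, 0; 0, m.det⁻¹] * g) : Matrix (Fin 2) (Fin 2) k)
      = g := by
    have hone : (!![1, 0; 0, m.det] * !![1, 0; 0, m.det⁻¹] : Matrix (Fin 2) (Fin 2) k) = 1 := by
      rw [Matrix.mul_fin_two, Matrix.one_fin_two]
      simp [hne]
    rw [← Matrix.mul_assoc, hone, Matrix.one_mul]
  have hsl := eq_on_sl96 hF hF' h11 _ hg0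
  have hsq : ((Real.sqrt (absv m.det) : ℝ) : ℂ) ≠ 0 := by
    have : 0 < Real.sqrt (absv m.det) := Real.sqrt_pos.mpr (hpos _ hne)
    exact_mod_cast this.ne'
  funext ξ
  have e1 := hF.tor m htor hne _ 1 ξ hadm
  have e2 := hF'.tor m htor hne _ 1 ξ hadm
  rw [hback, Matrix.mul_one] at e1 e2
  rw [hsl] at e1
  exact mul_left_cancel₀ hsq (e1.trans e2.symm)

end Fermat.Agent.LT.A2.H96

end
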